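import Mathlib

set_option autoImplicit false

/-!
Two-isogeny descent on the elliptic curves `20a1`, `20a2`: the rational points of
`y² = X (X² - 2 X + 5)`.
-/

namespace Fermat.Agent.X20

lemma exists_pow_four {P Q e : ℤ} (hP : 0 ≤ P) (hc : IsCoprime P Q) (h : P * Q = e ^ 4) :
    ∃ a : ℤ, P = a ^ 4 := by
  obtain ⟨d, hd⟩ := exists_associated_pow_of_mul_eq_pow' hc h
  rcases Int.associated_iff.mp hd with h1 | h1
  · exact ⟨d, h1.symm⟩
  · refine ⟨d, ?_⟩
    have h2 : 0 ≤ d ^ 4 := by positivity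
    omega

lemma sq_eq_of_pow_four {a b : ℤ} (h : a ^ 4 = b ^ 4) : a ^ 2 = b ^ 2 := by
  have h1 : (a ^ 2) ^ 2 = (b ^ 2) ^ 2 := by
    rw [← pow_mul, ← pow_mul]; exact h
  exact (sq_eq_sq₀ (sq_nonneg a) (sq_nonneg b)).mp h1

lemma isCoprime_of_pow {a b : ℤ} (h : IsCoprime (a ^ 4) (b ^ 4)) : IsCoprime a b :=
  (IsCoprime.pow_iff (by norm_num) (by norm_num)).mp h

lemma stepA {M e N : ℤ} (hc : IsCoprime M e) (he : e ≠ 0)
    (h : N ^ 2 = M ^ 4 - 2 * M ^ 2 * e ^ 2 + 5 * e ^ 4) :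
    ∃ u v : ℤ, IsCoprime u v ∧ e ^ 2 = (u * v) ^ 2 ∧ M ^ 2 = u ^ 4 + u ^ 2 * v ^ 2 - v ^ 4 := by
  wlog hN : 0 ≤ N generalizing N
  · exact this (N := -N) (by rw [← h]; ring) (by omega)
  have h1 : (N - (M ^ 2 - e ^ 2)) * (N + (M ^ 2 - e ^ 2)) = 4 * e ^ 4 := by
    linear_combination h
  have hpar : ∃ P : ℤ, N - (M ^ 2 - e ^ 2) = 2 * P := by
    rcases Int.even_or_odd (N - (M ^ 2 - e ^ 2)) with h2 | h2
    · obtain ⟨P, hP⟩ := h2
      exact ⟨P, by rw [hP]; ring⟩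
    · exfalso
      have h3 : Odd (N + (M ^ 2 - e ^ 2)) := by
        have : N + (M ^ 2 - e ^ 2) = (N - (M ^ 2 - e ^ 2)) + 2 * (M ^ 2 - e ^ 2) := by ring
        rw [this]
        exact h2.add_even (even_two_mul _)
      have h4 := h2.mul h3
      rw [h1] at h4
      have h5 : Even (4 * e ^ 4) := ⟨2 * e ^ 4, by ring⟩
      exact (Int.not_even_iff_odd.mpr h4) h5
  obtain ⟨P, hP⟩ := hpar
  obtain ⟨Q, hQ⟩ : ∃ Q : ℤ, N + (M ^ 2 - e ^ 2) = 2 * Q := ⟨P + (M ^ 2 - e ^ 2), by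
    linear_combination hP⟩
  have hPQ : P * Q = e ^ 4 := by
    rw [hP, hQ] at h1
    linarith
  have hd : Q - P = M ^ 2 - e ^ 2 := by linarith
  have hs : P + Q = N := by linarith
  have he4 : 0 < e ^ 4 := by positivity
  have hP0 : 0 ≤ P := by
    by_contra hcon
    push Not at hcon
    have hQ0 : Q ≤ 0 := by
      by_contra h2
      push Not at h2
      nlinarith [mul_pos (neg_pos.mpr hcon) h2]
    omega
  have hQ0 : 0 ≤ Q := by
    by_contra hcon
    push Not at hcon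
    nlinarith [mul_nonneg hP0 (neg_nonneg.mpr hcon.le)]
  have hcop : IsCoprime P Q := by
    apply isCoprime_of_prime_dvd
    · rintro ⟨rfl, rfl⟩
      rw [zero_mul] at hPQ
      exact he4.ne hPQ
    · intro q hq h2 h3
      have h4 : q ∣ e ^ 4 := by rw [← hPQ]; exact h2.mul_right _
      have h5 : q ∣ e := hq.dvd_of_dvd_pow h4
      have h6 : q ∣ M ^ 2 := by
        have : M ^ 2 = Q - P + e ^ 2 := by linarith
        rw [this]
        exact dvd_add (dvd_sub h3 h2) (h5.trans (dvd_pow_self e two_ne_zero))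
      have h7 : q ∣ M := hq.dvd_of_dvd_pow h6
      exact hq.not_isUnit (hc.isUnit_of_dvd' h7 h5)
  obtain ⟨a, ha⟩ := exists_pow_four hP0 hcop hPQ
  obtain ⟨b, hb⟩ := exists_pow_four hQ0 hcop.symm (by rw [mul_comm]; exact hPQ)
  have he2 : e ^ 2 = (b * a) ^ 2 := by
    apply sq_eq_of_pow_four
    rw [← hPQ, ha, hb]; ring
  refine ⟨b, a, isCoprime_of_pow (by rw [← ha, ← hb]; exact hcop.symm), he2, ?_⟩
  rw [ha, hb] at hd
  linear_combination -hd + he2

lemma split5 {P Q w : ℤ} (hc : IsCoprime P Q) (hw : w ≠ 0) (hPQ : P * Q = 5 * w ^ 4)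
    (hs : 0 < P + Q) : ∃ a b : ℤ, IsCoprime b a ∧ w ^ 2 = (a * b) ^ 2 ∧
      P + Q = 5 * a ^ 4 + b ^ 4 := by
  wlog h5 : (5 : ℤ) ∣ P generalizing P Q
  · have hp5 : Prime (5 : ℤ) := Int.prime_iff_natAbs_prime.mpr (by norm_num)
    have h6 : (5 : ℤ) ∣ Q := by
      have h7 : (5 : ℤ) ∣ P * Q := ⟨w ^ 4, hPQ⟩
      rcases hp5.dvd_or_dvd h7 with h8 | h8
      · exact absurd h8 h5
      · exact h8
    obtain ⟨a, b, h1, h2, h3⟩ := this hc.symm (by rw [mul_comm]; exact hPQ) (by linarith) h6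
    exact ⟨a, b, h1, h2, by rw [← h3]; ring⟩
  obtain ⟨P', rfl⟩ := h5
  have hPQ' : P' * Q = w ^ 4 := by linarith
  have hc' : IsCoprime P' Q := hc.of_mul_left_right
  have hw4 : 0 < w ^ 4 := by positivity
  have hP0 : 0 ≤ P' := by
    by_contra hcon
    push Not at hcon
    have hQ0 : Q ≤ 0 := by
      by_contra h2
      push Not at h2
      nlinarith [mul_pos (neg_pos.mpr hcon) h2]
    omega
  have hQ0 : 0 ≤ Q := by
    by_contra hcon
    push Not at hcon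
    nlinarith [mul_nonneg hP0 (neg_nonneg.mpr hcon.le)]
  obtain ⟨a, ha⟩ := exists_pow_four hP0 hc' hPQ'
  obtain ⟨b, hb⟩ := exists_pow_four hQ0 hc'.symm (by rw [mul_comm]; exact hPQ')
  refine ⟨a, b, isCoprime_of_pow (by rw [← ha, ← hb]; exact hc'.symm), ?_, by rw [ha, hb]⟩
  apply sq_eq_of_pow_four
  rw [← hPQ', ha, hb]; ring

lemma prime_dvd_of_sq_dvd {q v : ℤ} (hq : Prime q) (h : q ^ 2 ∣ 5 * v ^ 4) : q ∣ v := by
  by_contra hcon
  have h1 : IsCoprime q v := (Prime.coprime_iff_not_dvd hq).mpr hcon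
  have h2 : IsCoprime (q ^ 2) (v ^ 4) := h1.pow
  have h3 : q ^ 2 ∣ 5 := h2.dvd_of_dvd_mul_right h
  have hsq : Squarefree (5 : ℤ) := (Int.prime_iff_natAbs_prime.mpr (by norm_num)).squarefree
  rw [pow_two] at h3
  exact hq.not_isUnit (hsq q h3)

lemma stepB {u v M : ℤ} (hc : IsCoprime u v) (hv : v ≠ 0)
    (h : M ^ 2 = u ^ 4 + u ^ 2 * v ^ 2 - v ^ 4) :
    ∃ a b : ℤ, IsCoprime b a ∧
      ((v ^ 2 = (a * b) ^ 2 ∧ (2 * u) ^ 2 = b ^ 4 - 2 * b ^ 2 * a ^ 2 + 5 * a ^ 4) ∨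
       (v ^ 2 = (2 * a * b) ^ 2 ∧ u ^ 2 = b ^ 4 - 2 * b ^ 2 * a ^ 2 + 5 * a ^ 4)) := by
  have hv2 : 0 < v ^ 2 := by positivity
  rcases Int.even_or_odd v with hpar | hpar
  · -- `v` even
    obtain ⟨w, hw⟩ := hpar
    have hw' : v = 2 * w := by rw [hw]; ring
    have hw0 : w ≠ 0 := by rintro rfl; exact hv (by rw [hw']; ring)
    have hu : Odd u := by
      rw [← Int.not_even_iff_odd]
      intro hu
      have h1 : (2 : ℤ) ∣ u := hu.two_dvd
      have h2 : (2 : ℤ) ∣ v := ⟨w, hw'⟩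
      have := hc.isUnit_of_dvd' h1 h2
      rw [Int.isUnit_iff] at this
      omega
    have hM : Odd M := by
      rw [← Int.not_even_iff_odd]
      intro hM
      have h1 : Even (M ^ 2) := hM.pow_of_ne_zero two_ne_zero
      have h2 : Odd (u ^ 4 + u ^ 2 * v ^ 2 - v ^ 4) := by
        have h3 : u ^ 4 + u ^ 2 * v ^ 2 - v ^ 4 = u ^ 4 + 2 * (2 * u ^ 2 * w ^ 2 - 8 * w ^ 4) := by
          rw [hw']; ring
        rw [h3]
        exact (hu.pow).add_even (even_two_mul _)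
      rw [← h] at h2
      exact (Int.not_even_iff_odd.mpr h2) h1
    obtain ⟨P, hP⟩ : ∃ P : ℤ, u ^ 2 + 2 * w ^ 2 - M = 2 * P := by
      have : Even (u ^ 2 + 2 * w ^ 2 - M) := by
        have h1 : Odd (u ^ 2 + 2 * w ^ 2) := (hu.pow).add_even (even_two_mul _)
        exact h1.sub_odd hM
      obtain ⟨P, hP⟩ := this
      exact ⟨P, by rw [hP]; ring⟩
    obtain ⟨Q, hQ⟩ : ∃ Q : ℤ, u ^ 2 + 2 * w ^ 2 + M = 2 * Q := ⟨P + M, by linear_combination hP⟩
    have hPQ : P * Q = 5 * w ^ 4 := by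
      have h1 : (2 * P) * (2 * Q) = 20 * w ^ 4 := by
        rw [← hP, ← hQ]
        rw [hw'] at h
        linear_combination -h
      linarith
    have hs : P + Q = u ^ 2 + 2 * w ^ 2 := by linarith
    have hcop : IsCoprime P Q := by
      apply isCoprime_of_prime_dvd
      · rintro ⟨rfl, rfl⟩
        have : (0 : ℤ) < w ^ 4 := by positivity
        simp at hPQ
        exact hw0 hPQ
      · intro q hq h2 h3
        have h4 : q ^ 2 ∣ 5 * w ^ 4 := by rw [← hPQ, pow_two]; exact mul_dvd_mul h2 h3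
        have h5 := prime_dvd_of_sq_dvd hq h4
        have h6 : q ∣ u ^ 2 := by
          have : u ^ 2 = P + Q - 2 * w ^ 2 := by linarith
          rw [this]
          exact dvd_sub (dvd_add h2 h3) ((h5.trans (dvd_pow_self w two_ne_zero)).mul_left 2)
        have h7 : q ∣ u := hq.dvd_of_dvd_pow h6
        exact hq.not_isUnit (hc.isUnit_of_dvd' h7 (by rw [hw']; exact h5.mul_left 2))
    obtain ⟨a, b, h1, h2, h3⟩ := split5 hcop hw0 hPQ (by rw [hs]; positivity)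
    refine ⟨a, b, h1, Or.inr ⟨?_, ?_⟩⟩
    · rw [hw']; linear_combination 4 * h2
    · rw [hs] at h3
      linear_combination h3 - 2 * h2
  · -- `v` odd
    have hPQ : (2 * u ^ 2 + v ^ 2 - 2 * M) * (2 * u ^ 2 + v ^ 2 + 2 * M) = 5 * v ^ 4 := by
      linear_combination -4 * h
    obtain ⟨P, hP⟩ : ∃ P : ℤ, P = 2 * u ^ 2 + v ^ 2 - 2 * M := ⟨_, rfl⟩
    obtain ⟨Q, hQ⟩ : ∃ Q : ℤ, Q = 2 * u ^ 2 + v ^ 2 + 2 * M := ⟨_, rfl⟩
    rw [← hP, ← hQ] at hPQ
    have hs : P + Q = 2 * (2 * u ^ 2 + v ^ 2) := by rw [hP, hQ]; ring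
    have hPodd : Odd P := by
      have : P = v ^ 2 + 2 * (u ^ 2 - M) := by rw [hP]; ring
      rw [this]
      exact (hpar.pow).add_even (even_two_mul _)
    have hcop : IsCoprime P Q := by
      apply isCoprime_of_prime_dvd
      · rintro ⟨rfl, rfl⟩
        simp at hPQ
        exact hv hPQ
      · intro q hq h2 h3
        have h4 : q ^ 2 ∣ 5 * v ^ 4 := by rw [← hPQ, pow_two]; exact mul_dvd_mul h2 h3
        have h5 := prime_dvd_of_sq_dvd hq h4
        have h6 : q ∣ 2 * 2 * u ^ 2 := by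
          have : 2 * 2 * u ^ 2 = P + Q - 2 * v ^ 2 := by linarith
          rw [this]
          exact dvd_sub (dvd_add h2 h3) ((h5.trans (dvd_pow_self v two_ne_zero)).mul_left 2)
        have h2q : ¬ q ∣ 2 := by
          intro h7
          have h8 : IsCoprime (2 : ℤ) P := by
            obtain ⟨k, hk⟩ := hPodd
            exact ⟨-k, 1, by rw [hk]; ring⟩
          exact hq.not_isUnit (h8.isUnit_of_dvd' h7 h2)
        have h7 : q ∣ u := by
          rcases hq.dvd_or_dvd h6 with h8 | h8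
          · rcases hq.dvd_or_dvd h8 with h9 | h9 <;> exact absurd h9 h2q
          · exact hq.dvd_of_dvd_pow h8
        exact hq.not_isUnit (hc.isUnit_of_dvd' h7 h5)
    obtain ⟨a, b, h1, h2, h3⟩ := split5 hcop hv hPQ (by rw [hs]; positivity)
    refine ⟨a, b, h1, Or.inl ⟨h2, ?_⟩⟩
    rw [hs] at h3
    linear_combination h3 - 2 * h2

lemma natAbs_le_of_dvd_sq {a b c : ℤ} (hb : b ≠ 0) (h : b ^ 2 = (a * c) ^ 2) :
    a.natAbs ≤ b.natAbs ∧ (a.natAbs = b.natAbs → c ^ 2 = 1) := by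
  have h1 : b.natAbs = a.natAbs * c.natAbs := by
    rw [← Int.natAbs_mul]
    exact Int.natAbs_eq_iff_sq_eq.mpr h
  have hb' : b.natAbs ≠ 0 := by omega
  have hc0 : c.natAbs ≠ 0 := by rintro h2; rw [h2, mul_zero] at h1; exact hb' h1
  have ha0 : a.natAbs ≠ 0 := by rintro h2; rw [h2, zero_mul] at h1; exact hb' h1
  constructor
  · rw [h1]; exact Nat.le_mul_of_pos_right _ (Nat.pos_of_ne_zero hc0)
  · intro h2
    rw [h1] at h2
    have h3 : c.natAbs = 1 := by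
      have : a.natAbs * 1 = a.natAbs * c.natAbs := by rw [mul_one]; exact h2
      exact (Nat.eq_of_mul_eq_mul_left (Nat.pos_of_ne_zero ha0) this).symm
    have : c ^ 2 = ((c.natAbs : ℤ)) ^ 2 := (Int.natAbs_sq c).symm
    rw [this, h3]; norm_num

lemma small_v {v M : ℤ} (hv : v ≠ 0) (h : M ^ 2 = 1 + v ^ 2 - v ^ 4) : v ^ 2 = 1 := by
  have h1 : 1 ≤ v ^ 2 := by
    have : 0 < v ^ 2 := by positivity
    omega
  by_contra h2
  have h3 : 2 ≤ v ^ 2 := by omega
  have h4 : 0 ≤ M ^ 2 := sq_nonneg M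
  have h5 : v ^ 4 = v ^ 2 * v ^ 2 := by ring
  nlinarith

/-- The trivial coset of the two-isogeny descent on `y² = X (X² - 2 X + 5)`. -/
theorem quartic_aux : ∀ (k : ℕ) (M e N : ℤ), e.natAbs = k → IsCoprime M e →
    N ^ 2 = M ^ 4 - 2 * M ^ 2 * e ^ 2 + 5 * e ^ 4 → e ≠ 0 → e ^ 2 = 1 ∧ M ^ 2 = 1 := by
  intro k
  induction k using Nat.strong_induction_on with
  | _ k ih =>
    intro M e N hk hc h he
    obtain ⟨u, v, huv, he2, hM⟩ := stepA hc he h
    have hu0 : u ≠ 0 := by rintro rfl; simp at he2; exact he he2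
    have hv0 : v ≠ 0 := by rintro rfl; simp at he2; exact he he2
    obtain ⟨hve, hve'⟩ := natAbs_le_of_dvd_sq (a := v) (b := e) (c := u) he
      (by rw [he2]; ring)
    obtain ⟨a, b, hab, hcase⟩ := stepB huv hv0 hM
    -- if `v² = 1 = u²` we are done
    have hdone : u ^ 2 = 1 → v ^ 2 = 1 → e ^ 2 = 1 ∧ M ^ 2 = 1 := by
      intro h1 h2
      refine ⟨by rw [he2, mul_pow, h1, h2]; norm_num, ?_⟩
      rw [hM]
      have h3 : u ^ 4 = (u ^ 2) ^ 2 := by ring
      have h4 : v ^ 4 = (v ^ 2) ^ 2 := by ring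
      rw [h3, h4, h1, h2]; norm_num
    rcases hcase with ⟨c1, c2⟩ | ⟨c1, c2⟩
    · have ha0 : a ≠ 0 := by rintro rfl; simp at c1; exact hv0 c1
      obtain ⟨hav, hav'⟩ := natAbs_le_of_dvd_sq (a := a) (b := v) (c := b) hv0 c1
      rcases lt_or_eq_of_le (hav.trans hve) with hlt | heq
      · obtain ⟨a2, b2⟩ := ih a.natAbs (by omega) b a (2 * u) rfl hab c2 ha0
        have hv2 : v ^ 2 = 1 := by rw [c1, mul_pow, a2, b2]; norm_num
        have hu2 : u ^ 2 = 1 := by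
          have h3 : a ^ 4 = (a ^ 2) ^ 2 := by ring
          have h4 : b ^ 4 = (b ^ 2) ^ 2 := by ring
          rw [h3, h4, a2, b2] at c2
          linarith
        exact hdone hu2 hv2
      · have hu2 : u ^ 2 = 1 := hve' (by omega)
        have hM' : M ^ 2 = 1 + v ^ 2 - v ^ 4 := by
          rw [hM]
          have h3 : u ^ 4 = (u ^ 2) ^ 2 := by ring
          rw [h3, hu2]; ring
        exact hdone hu2 (small_v hv0 hM')
    · have ha0 : a ≠ 0 := by rintro rfl; simp at c1; exact hv0 c1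
      obtain ⟨hav, hav'⟩ := natAbs_le_of_dvd_sq (a := a) (b := v) (c := 2 * b) hv0
        (by rw [c1]; ring)
      have hlt : a.natAbs < e.natAbs := by
        rcases lt_or_eq_of_le (hav.trans hve) with hlt | heq
        · exact hlt
        · exfalso
          have : (2 * b) ^ 2 = 1 := hav' (by omega)
          have h2 : 4 * b ^ 2 = 1 := by linarith
          omega
      obtain ⟨a2, b2⟩ := ih a.natAbs (by omega) b a u rfl hab c2 ha0
      exfalso
      have h3 : a ^ 4 = (a ^ 2) ^ 2 := by ring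
      have h4 : b ^ 4 = (b ^ 2) ^ 2 := by ring
      have hu2 : u ^ 2 = 4 := by
        rw [h3, h4, a2, b2] at c2
        linarith
      have hv2 : v ^ 2 = 4 := by
        have : (2 * a * b) ^ 2 = 4 * (a ^ 2 * b ^ 2) := by ring
        rw [c1, this, a2, b2]; norm_num
      have d1 : (2 : ℤ) ∣ u := Int.prime_two.dvd_of_dvd_pow (n := 2) ⟨2, by linarith⟩
      have d2 : (2 : ℤ) ∣ v := Int.prime_two.dvd_of_dvd_pow (n := 2) ⟨2, by linarith⟩
      have := huv.isUnit_of_dvd' d1 d2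
      rw [Int.isUnit_iff] at this
      omega

theorem quartic {M e N : ℤ} (hc : IsCoprime M e)
    (h : N ^ 2 = M ^ 4 - 2 * M ^ 2 * e ^ 2 + 5 * e ^ 4) : e = 0 ∨ (e ^ 2 = 1 ∧ M ^ 2 = 1) := by
  by_cases he : e = 0
  · exact Or.inl he
  · exact Or.inr (quartic_aux _ M e N rfl hc h he)

lemma sq_of_coprime {a b c : ℤ} (ha : 0 ≤ a) (h : IsCoprime a b) (heq : a * b = c ^ 2) :
    ∃ d, a = d ^ 2 := by
  obtain ⟨d, hd | hd⟩ := Int.sq_of_isCoprime h heq
  · exact ⟨d, hd⟩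
  · refine ⟨0, ?_⟩
    nlinarith [sq_nonneg d]

/-- The rational points of `y² = X (X² - 2 X + 5)`. -/
theorem curve_points {X y : ℚ} (h : y ^ 2 = X * (X ^ 2 - 2 * X + 5)) : X = 0 ∨ X = 1 ∨ X = 5 := by
  have hD : (X.den : ℚ) ≠ 0 := by exact_mod_cast X.den_nz
  have hDz : (X.den : ℤ) ≠ 0 := by exact_mod_cast X.den_nz
  have hnum : (X.num : ℚ) = X * X.den := by rw [Rat.mul_den_eq_num]
  have e1 : IsSquare ((X.num * X.den * (X.num ^ 2 - 2 * X.num * X.den + 5 * (X.den : ℤ) ^ 2) : ℤ) : ℚ) := by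
    refine ⟨y * X.den ^ 2, ?_⟩
    push_cast
    rw [hnum]
    linear_combination -(X.den : ℚ) ^ 4 * h
  rw [Rat.isSquare_intCast_iff] at e1
  obtain ⟨k, hk⟩ := e1
  have hcop : IsCoprime X.num (X.den : ℤ) := by
    rw [Int.isCoprime_iff_gcd_eq_one]
    have := X.reduced
    rwa [Nat.Coprime] at this
  have hXeq : X = (X.num : ℚ) / (X.den : ℤ) := by
    push_cast
    exact (Rat.num_div_den X).symm
  have hDpos : (0 : ℤ) < X.den := by exact_mod_cast X.den_pos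
  generalize (X.num : ℤ) = a at *
  generalize (X.den : ℤ) = b at *
  have hb0 : b ≠ 0 := hDpos.ne'
  have hF : 0 < a ^ 2 - 2 * a * b + 5 * b ^ 2 := by
    have : a ^ 2 - 2 * a * b + 5 * b ^ 2 = (a - b) ^ 2 + 4 * b ^ 2 := by ring
    rw [this]; positivity
  have hcb : IsCoprime b (a * (a ^ 2 - 2 * a * b + 5 * b ^ 2)) := by
    refine IsCoprime.mul_right hcop.symm ?_
    have h2 : IsCoprime b (a ^ 2) := (hcop.symm).pow_right
    have : a ^ 2 - 2 * a * b + 5 * b ^ 2 = a ^ 2 + b * (5 * b - 2 * a) := by ring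
    rw [this]
    exact IsCoprime.add_mul_left_right h2 _
  have hprod : b * (a * (a ^ 2 - 2 * a * b + 5 * b ^ 2)) = k ^ 2 := by
    linear_combination hk
  obtain ⟨e, he⟩ := sq_of_coprime hDpos.le hcb hprod
  have he0 : e ≠ 0 := by rintro rfl; exact hb0 (by rw [he]; ring)
  have ha0 : 0 ≤ a := by
    by_contra hcon
    push Not at hcon
    have h2 : 0 < b * ((-a) * (a ^ 2 - 2 * a * b + 5 * b ^ 2)) := by
      have : 0 < -a := by omega
      positivity
    nlinarith [sq_nonneg k]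
  obtain ⟨k', hk'⟩ : ∃ k', a * (a ^ 2 - 2 * a * b + 5 * b ^ 2) = k' ^ 2 :=
    sq_of_coprime (mul_nonneg ha0 hF.le) hcb.symm (by rw [mul_comm]; exact hprod)
  by_cases h5 : (5 : ℤ) ∣ a
  · obtain ⟨a', rfl⟩ := h5
    have h5k : (5 : ℤ) ^ 2 ∣ k' ^ 2 := ⟨a' * (5 * a' ^ 2 - 2 * a' * b + b ^ 2), by
      rw [← hk']; ring⟩
    obtain ⟨l, rfl⟩ := (Int.pow_dvd_pow_iff two_ne_zero).mp h5k
    have hl : a' * (5 * a' ^ 2 - 2 * a' * b + b ^ 2) = l ^ 2 := by
      have : (25 : ℤ) * (a' * (5 * a' ^ 2 - 2 * a' * b + b ^ 2)) = 25 * l ^ 2 := by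
        linear_combination hk'
      exact mul_left_cancel₀ (by norm_num) this
    have hc' : IsCoprime a' b := hcop.of_mul_left_right
    have hc2 : IsCoprime a' (5 * a' ^ 2 - 2 * a' * b + b ^ 2) := by
      have h2 : IsCoprime a' (b ^ 2) := hc'.pow_right
      have : 5 * a' ^ 2 - 2 * a' * b + b ^ 2 = b ^ 2 + a' * (5 * a' - 2 * b) := by ring
      rw [this]
      exact IsCoprime.add_mul_left_right h2 _
    have ha'0 : 0 ≤ a' := by omega
    have hF' : 0 ≤ 5 * a' ^ 2 - 2 * a' * b + b ^ 2 := by nlinarith [sq_nonneg (a' - b)]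
    obtain ⟨M, hM⟩ := sq_of_coprime ha'0 hc2 hl
    obtain ⟨N, hN⟩ := sq_of_coprime hF' hc2.symm (by rw [mul_comm]; exact hl)
    have hcM : IsCoprime e M := by
      rw [hM, he] at hc'
      exact ((IsCoprime.pow_iff (by norm_num) (by norm_num)).mp hc').symm
    rcases quartic (M := e) (e := M) (N := N) hcM (by rw [← hN, hM, he]; ring) with h0 | ⟨h1, h2⟩
    · left
      rw [hXeq, hM, h0]; simp
    · right; right
      rw [hXeq, hM, he, h1, h2]; norm_num
  · have hc2 : IsCoprime a (a ^ 2 - 2 * a * b + 5 * b ^ 2) := by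
      have hp5 : Prime (5 : ℤ) := Int.prime_iff_natAbs_prime.mpr (by norm_num)
      have h2 : IsCoprime a (5 * b ^ 2) := by
        refine IsCoprime.mul_right ?_ hcop.pow_right
        exact ((Prime.coprime_iff_not_dvd hp5).mpr h5).symm
      have : a ^ 2 - 2 * a * b + 5 * b ^ 2 = 5 * b ^ 2 + a * (a - 2 * b) := by ring
      rw [this]
      exact IsCoprime.add_mul_left_right h2 _
    obtain ⟨M, hM⟩ := sq_of_coprime ha0 hc2 hk'
    obtain ⟨N, hN⟩ := sq_of_coprime hF.le hc2.symm (by rw [mul_comm]; exact hk')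
    have hcM : IsCoprime M e := by
      rw [hM, he] at hcop
      exact (IsCoprime.pow_iff (by norm_num) (by norm_num)).mp hcop
    rcases quartic (M := M) (e := e) (N := N) hcM (by rw [← hN, hM, he]; ring) with h0 | ⟨h1, h2⟩
    · exact absurd h0 he0
    · right; left
      rw [hXeq, hM, he, h1, h2]; norm_num

end Fermat.Agent.X20
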