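import Mathlib
import Fermat.Agent.X20.Descent
import Fermat.Agent.S51_lib.Galois
import Fermat.Agent.Final.Frey

set_option autoImplicit false

/-!
Elliptic curves over `ℚ` with full rational two-torsion (in particular Frey curves) are
irreducible mod `5`.
-/

namespace Fermat.Agent.X20

open WeierstrassCurve WeierstrassCurve.Affine WeierstrassCurve.Affine.Point
open Fermat.Agent.S51

/-- The rational points of `(w - 1) (w - 5) (w² - 2 w + 5) = □`. -/
theorem w_points {w v : ℚ} (h : (w - 1) * (w - 5) * (w ^ 2 - 2 * w + 5) = v ^ 2) :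
    w = 1 ∨ w = 5 ∨ w = 0 := by
  by_cases h1 : w - 1 = 0
  · left; linarith
  right
  -- `X = 1 - 4 / (w - 1) = (w - 5) / (w - 1)`
  have hX : (2 * v / (w - 1) ^ 2) ^ 2 = ((w - 5) / (w - 1)) *
      (((w - 5) / (w - 1)) ^ 2 - 2 * ((w - 5) / (w - 1)) + 5) := by
    field_simp
    linear_combination (-4) * h
  rcases curve_points hX with h2 | h2 | h2
  · left
    rcases div_eq_zero_iff.mp h2 with h3 | h3
    · linarith
    · exact absurd h3 h1
  · exfalso
    rw [div_eq_one_iff_eq h1] at h2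
    linarith
  · right
    rw [div_eq_iff h1] at h2
    linarith

/-- No rational 5-isogeny for `Y² = X (X² + a₂ X + a₄)` with `a₂² - 4 a₄` a nonzero square. -/
theorem no_five {b2 b4 C s p : ℚ} (hb4 : b4 ≠ 0) (hC : b2 ^ 2 - 32 * b4 = C ^ 2) (hC0 : C ≠ 0)
    (R1 : s ^ 3 - 6 * p * s - b4 * s - b2 * p = 0)
    (R3 : p * s ^ 2 - 5 * p ^ 2 + b4 * p - (b4 / 2) ^ 2 = 0) : False := by
  have hp : p ≠ 0 := by
    rintro rfl
    have : (b4 / 2) ^ 2 = 0 := by linear_combination -R3
    have h2 : b4 / 2 = 0 := by simpa using this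
    apply hb4; linarith
  obtain ⟨w, hw⟩ : ∃ w : ℚ, b4 = 2 * w * p := ⟨b4 / (2 * p), by field_simp⟩
  subst hw
  have hs2 : s ^ 2 = p * (w ^ 2 - 2 * w + 5) := by
    have : p * (s ^ 2 - p * (w ^ 2 - 2 * w + 5)) = 0 := by linear_combination R3
    rcases mul_eq_zero.mp this with h | h
    · exact absurd h hp
    · linarith
  have hb2 : b2 = s * (w ^ 2 - 4 * w - 1) := by
    have : p * (b2 - s * (w ^ 2 - 4 * w - 1)) = 0 := by
      linear_combination -R1 + s * hs2
    rcases mul_eq_zero.mp this with h | h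
    · exact absurd h hp
    · linarith
  have hC2 : C ^ 2 = p * (w - 1) ^ 5 * (w - 5) := by
    rw [← hC, hb2]
    linear_combination (w ^ 2 - 4 * w - 1) ^ 2 * hs2
  have hw1 : w - 1 ≠ 0 := by
    intro h
    rw [h] at hC2
    apply hC0
    have : C ^ 2 = 0 := by rw [hC2]; ring
    simpa using this
  have hw5 : w - 5 ≠ 0 := by
    intro h
    rw [h] at hC2
    apply hC0
    have : C ^ 2 = 0 := by rw [hC2]; ring
    simpa using this
  have key : (w - 1) * (w - 5) * (w ^ 2 - 2 * w + 5) = (C * s / (p * (w - 1) ^ 2)) ^ 2 := by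
    field_simp
    linear_combination (-s ^ 2) * hC2 - p * (w - 1) ^ 5 * (w - 5) * hs2
  rcases w_points key with h | h | h
  · exact hw1 (by linarith)
  · exact hw5 (by linarith)
  · apply hb4; rw [h]; ring

/-- An elliptic curve `E / ℚ` such that `(0, 0)` is a two-torsion point and all the two-torsion is
rational is irreducible mod `5`. -/
theorem irr5_of_full (E : WeierstrassCurve ℚ) (hΔ : E.Δ ≠ 0) (h6 : E.b₆ = 0) {C : ℚ}
    (hC : E.b₂ ^ 2 - 32 * E.b₄ = C ^ 2) :
    GaloisRepIsIrreducible (K := AlgebraicClosure ℚ) ℚ E 5 := by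
  by_contra hcon
  obtain ⟨x, x', s, p, hne, hs, hp, r1, r2, hx3, hx3'⟩ := Galois.five E hΔ hcon
  -- the relations over `ℚ`
  have R1K := Torsion.R1_of hne r1 r2
  have R1 : s ^ 3 - 6 * p * s - E.b₄ * s - E.b₂ * p - E.b₆ = 0 := by
    apply (algebraMap ℚ (AlgebraicClosure ℚ)).injective
    rw [Galois.bb₂, Galois.bb₄, Galois.bb₆, ← hs, ← hp] at R1K
    simp only [map_sub, map_mul, map_pow, map_ofNat, _root_.map_zero]
    linear_combination R1K
  have R3K := Torsion.R3_of (by norm_num) hne r1 r2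
  have R3 : p * s ^ 2 - 5 * p ^ 2 + E.b₄ * p + E.b₆ * s + E.b₈ = 0 := by
    apply (algebraMap ℚ (AlgebraicClosure ℚ)).injective
    rw [Galois.bb₄, Galois.bb₆, Galois.bb₈, ← hs, ← hp] at R3K
    simp only [_root_.map_add, map_sub, map_mul, map_pow, map_ofNat, _root_.map_zero]
    linear_combination R3K
  have hb : 4 * E.b₈ = E.b₂ * E.b₆ - E.b₄ ^ 2 := E.b_relation
  have h8 : E.b₈ = -(E.b₄ / 2) ^ 2 := by rw [h6] at hb; linear_combination hb / 4
  have hΔ' : 4 * E.Δ = E.b₄ ^ 2 * C ^ 2 := by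
    rw [WeierstrassCurve.Δ, h6, h8, ← hC]; ring
  have hb4 : E.b₄ ≠ 0 := by
    intro h
    rw [h] at hΔ'
    apply hΔ; linarith
  have hC0 : C ≠ 0 := by
    intro h
    rw [h] at hΔ'
    apply hΔ; linarith
  refine no_five (s := s) (p := p) hb4 hC hC0 ?_ ?_
  · linear_combination R1 + h6
  · linear_combination R3 - s * h6 - h8

/-- The Frey curve is irreducible mod `5`. -/
theorem irr5 (P : FreyPackage) : P.freyCurveInt.ModRepIsIrreducible 5 := by
  unfold ModRepIsIrreducible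
  have h2 := Final.four_mul_a₂ P
  have h4 := Final.sixteen_mul_a₄ P
  generalize hE : P.freyCurveInt.map (Int.castRingHom ℚ) = E
  have hΔ : E.Δ ≠ 0 := by
    rw [← hE, WeierstrassCurve.map_Δ]
    have := Final.Δ_ne_zero P
    simpa using this
  have hb2' : P.freyCurveInt.b₂ = P.b ^ P.p - P.a ^ P.p := by
    rw [WeierstrassCurve.b₂, Final.a₁_eq]; linarith
  have hb4' : P.freyCurveInt.b₄ = 2 * P.freyCurveInt.a₄ := by
    rw [WeierstrassCurve.b₄, Final.a₁_eq, Final.a₃_eq]; ring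
  have hb6' : P.freyCurveInt.b₆ = 0 := by
    rw [WeierstrassCurve.b₆, Final.a₃_eq, Final.a₆_eq]; ring
  have hC' : P.freyCurveInt.b₂ ^ 2 - 32 * P.freyCurveInt.b₄ = (P.c ^ P.p) ^ 2 := by
    rw [hb2', hb4', ← P.hFLT]
    linear_combination (-4) * h4
  have hb6 : E.b₆ = 0 := by
    rw [← hE, WeierstrassCurve.map_b₆, hb6']; simp
  refine irr5_of_full E hΔ hb6 (C := ((P.c ^ P.p : ℤ) : ℚ)) ?_
  rw [← hE, WeierstrassCurve.map_b₂, WeierstrassCurve.map_b₄]
  have := congrArg (Int.cast : ℤ → ℚ) hC'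
  push_cast at this ⊢
  simpa using this

end Fermat.Agent.X20
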